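/-
Level lowering by patching: completeness of power series rings over a complete discrete valuation
ring with respect to the maximal ideal.
-/
import Fermat.Agent.Patching.Descent
import Mathlib.RingTheory.AdicCompletion.Completeness
import Mathlib.RingTheory.AdicCompletion.Noetherian

set_option autoImplicit false

open MvPowerSeries IsLocalRing

namespace Fermat.Agent.LL

/-- Completeness for a sum of two ideals. -/
theorem isPrecomplete_sup {A : Type*} [CommRing A] (I J : Ideal A) [IsPrecomplete I A]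
    [IsPrecomplete J A] : IsPrecomplete (I ⊔ J) A := by
  classical
  refine ⟨fun f hf => ?_⟩
  -- pass to a subsequence so that each step splits
  have hstep : ∀ n, ∃ a b : A, a ∈ I ^ n ∧ b ∈ J ^ n ∧ f (2 * (n + 1)) - f (2 * n) = a + b := by
    intro n
    have h := hf (show 2 * n ≤ 2 * (n + 1) by omega)
    rw [SModEq.sub_mem, smul_eq_mul, Ideal.mul_top] at h
    have h' : f (2 * (n + 1)) - f (2 * n) ∈ I ^ n ⊔ J ^ n := by
      have hle : (I ⊔ J) ^ (n + n) ≤ I ^ n ⊔ J ^ n := Ideal.sup_pow_add_le_pow_sup_pow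
      rw [← two_mul] at hle
      have := hle h
      rw [← neg_sub]
      exact neg_mem this
    obtain ⟨a, ha, b, hb, hab⟩ := Submodule.mem_sup.mp h'
    exact ⟨a, b, ha, hb, hab.symm⟩
  choose a b ha hb hab using hstep
  have conv : ∀ (K : Ideal A) [IsPrecomplete K A] (c : ℕ → A), (∀ n, c n ∈ K ^ n) →
      ∃ L, ∀ n, (∑ i ∈ Finset.range n, c i) - L ∈ K ^ n := by
    intro K _ c hc
    obtain ⟨L, hL⟩ := IsPrecomplete.prec (I := K) (M := A) inferInstance
      (f := fun n => ∑ i ∈ Finset.range n, c i) (fun {m n} hmn => by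
        rw [SModEq.sub_mem, smul_eq_mul, Ideal.mul_top, ← neg_sub, ← Finset.sum_Ico_eq_sub _ hmn]
        refine neg_mem (sum_mem fun i hi => ?_)
        exact Ideal.pow_le_pow_right (Finset.mem_Ico.mp hi).1 (hc i))
    exact ⟨L, fun n => by simpa [SModEq.sub_mem] using hL n⟩
  obtain ⟨La, hLa⟩ := conv I a ha
  obtain ⟨Lb, hLb⟩ := conv J b hb
  refine ⟨f 0 + La + Lb, fun n => ?_⟩
  rw [SModEq.sub_mem, smul_eq_mul, Ideal.mul_top]
  have hsum : f (2 * n) = f 0 + (∑ i ∈ Finset.range n, a i) + ∑ i ∈ Finset.range n, b i := by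
    induction n with
    | zero => simp
    | succ n ih =>
      rw [Finset.sum_range_succ, Finset.sum_range_succ,
        show f (2 * (n + 1)) = f (2 * n) + (a n + b n) by rw [← hab n]; ring, ih]
      ring
  have h1 := hf (show n ≤ 2 * n by omega)
  rw [SModEq.sub_mem, smul_eq_mul, Ideal.mul_top] at h1
  rw [show f n - (f 0 + La + Lb) = (f n - f (2 * n)) + (((∑ i ∈ Finset.range n, a i) - La) +
    ((∑ i ∈ Finset.range n, b i) - Lb)) by rw [hsum]; ring]
  exact add_mem h1 (add_mem (Ideal.pow_right_mono le_sup_left n (hLa n))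
    (Ideal.pow_right_mono le_sup_right n (hLb n)))

/-- Power series over a complete ring are complete for the extended ideal. -/
theorem isPrecomplete_span_C {O : Type*} [CommRing O] (ϖ : O) [IsPrecomplete (Ideal.span {ϖ}) O]
    (σ : Type*) :
    IsPrecomplete (Ideal.span {C ϖ} : Ideal (MvPowerSeries σ O)) (MvPowerSeries σ O) := by
  have key : ∀ (n : ℕ) (g : MvPowerSeries σ O),
      g ∈ Ideal.span {C ϖ} ^ n ↔ ∀ d, ϖ ^ n ∣ coeff d g := fun n g => by
    rw [Ideal.span_singleton_pow, Ideal.mem_span_singleton, ← map_pow]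
    constructor
    · rintro ⟨h, rfl⟩ d
      rw [coeff_C_mul]
      exact dvd_mul_right _ _
    · intro h
      choose c hc using h
      let g' : MvPowerSeries σ O := fun d => c d
      exact ⟨g', MvPowerSeries.ext fun d => by
        rw [coeff_C_mul]; exact hc d⟩
  refine ⟨fun f hf => ?_⟩
  have hd : ∀ d, ∃ L : O, ∀ n, ϖ ^ n ∣ coeff d (f n) - L := fun d => by
    obtain ⟨L, hL⟩ := IsPrecomplete.prec (I := Ideal.span {ϖ}) (M := O) inferInstance
      (f := fun n => coeff d (f n)) (fun {m n} hmn => by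
        have h := hf hmn
        rw [SModEq.sub_mem, smul_eq_mul, Ideal.mul_top, key] at h
        rw [SModEq.sub_mem, smul_eq_mul, Ideal.mul_top, Ideal.span_singleton_pow,
          Ideal.mem_span_singleton, ← map_sub]
        exact h d)
    exact ⟨L, fun n => by
      simpa [SModEq.sub_mem, Ideal.span_singleton_pow, Ideal.mem_span_singleton] using hL n⟩
  choose L hL using hd
  let g : MvPowerSeries σ O := fun d => L d
  refine ⟨g, fun n => ?_⟩
  rw [SModEq.sub_mem, smul_eq_mul, Ideal.mul_top, key]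
  intro d
  rw [map_sub]
  exact hL d n

variable {O : Type} [CommRing O] [IsDomain O] [IsDiscreteValuationRing O]

theorem maximalIdeal_eq_sup {ϖ : O} (hϖ : Irreducible ϖ) (r : ℕ) :
    maximalIdeal (MvPowerSeries (Fin r) O) = Ideal.span (Set.range X) ⊔ Ideal.span {C ϖ} := by
  rw [Patching.maximalIdeal_eq_ofList_stdParams hϖ, Patching.stdParams, Ideal.ofList_append,
    Ideal.ofList_singleton, Patching.ofList_X]

instance isAdicComplete_powerSeries [IsAdicComplete (maximalIdeal O) O] (r : ℕ) :
    IsAdicComplete (maximalIdeal (MvPowerSeries (Fin r) O)) (MvPowerSeries (Fin r) O) := by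
  obtain ⟨ϖ, hϖ⟩ := IsDiscreteValuationRing.exists_irreducible O
  haveI : IsPrecomplete (Ideal.span {ϖ}) O := by
    rw [← hϖ.maximalIdeal_eq]; infer_instance
  haveI := isPrecomplete_span_C ϖ (Fin r)
  haveI : IsPrecomplete (maximalIdeal (MvPowerSeries (Fin r) O)) (MvPowerSeries (Fin r) O) := by
    rw [maximalIdeal_eq_sup hϖ]; exact isPrecomplete_sup _ _
  exact ⟨⟩

end Fermat.Agent.LL
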