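/-
Level lowering by patching: evaluation of power series in complete local rings, its kernel at a
point, and finiteness over power series rings.
-/
import Fermat.Agent.LL.Algebra.Complete
import Fermat.Prelude.Thm_IsAdicComplete_of_module_finite
import Mathlib.RingTheory.AdicCompletion.Functoriality
import Mathlib.RingTheory.MvPowerSeries.Equiv

set_option autoImplicit false

noncomputable section

open IsLocalRing MvPowerSeries

namespace Fermat.Agent.LL

/-- Evaluation of power series at elements of the maximal ideal of a complete local ring. -/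
theorem exists_eval {O : Type} [CommRing O] {σ : Type} [Finite σ] {B : Type} [CommRing B]
    [IsLocalRing B] [Algebra O B] [IsAdicComplete (maximalIdeal B) B] (a : σ → B)
    (ha : ∀ i, a i ∈ maximalIdeal B) :
    ∃ f : MvPowerSeries σ O →ₐ[O] B, ∀ i, f (X i) = a i := by
  let I := maximalIdeal B
  have hle : ∀ n, MvPolynomial.idealOfVars σ O ^ n ≤ (I ^ n).comap (MvPolynomial.aeval a) := by
    intro n
    refine (Ideal.pow_right_mono ?_ n).trans
      (Ideal.le_comap_pow (f := MvPolynomial.aeval a) (K := I) n)
    rw [MvPolynomial.idealOfVars, Ideal.span_le]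
    rintro _ ⟨i, rfl⟩
    rw [SetLike.mem_coe, Ideal.mem_comap, MvPolynomial.aeval_X]
    exact ha i
  let ev : ∀ n, (MvPolynomial σ O ⧸ MvPolynomial.idealOfVars σ O ^ n) →ₐ[O] B ⧸ I ^ n := fun n =>
    Ideal.Quotient.liftₐ _ ((Ideal.Quotient.mkₐ O (I ^ n)).comp (MvPolynomial.aeval a)) fun x hx =>
      Ideal.Quotient.eq_zero_iff_mem.mpr (hle n hx)
  let fn : ∀ n, MvPowerSeries σ O →ₐ[O] B ⧸ I ^ n := fun n =>
    (ev n).comp ((truncTotalAlgHom σ O n).restrictScalars O)
  have hcomp : ∀ {m n : ℕ} (h : m ≤ n),
      (Ideal.Quotient.factorₐ O (Ideal.pow_le_pow_right h)).comp (fn n) = fn m := by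
    intro m n h
    refine AlgHom.ext fun x => ?_
    change Ideal.Quotient.factor (Ideal.pow_le_pow_right h)
        (Ideal.Quotient.mk (I ^ n) (MvPolynomial.aeval a (truncTotal n x))) =
      Ideal.Quotient.mk (I ^ m) (MvPolynomial.aeval a (truncTotal m x))
    rw [Ideal.Quotient.factor_mk, Ideal.Quotient.mk_eq_mk_iff_sub_mem, ← map_sub]
    exact hle m (truncTotal_sub_truncTotal_mem_pow_idealOfVars h le_rfl x)
  refine ⟨(((AdicCompletion.ofAlgEquiv I).restrictScalars O).symm.toAlgHom).comp
    (AdicCompletion.liftAlgHom I fn hcomp), fun i => ?_⟩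
  apply ((AdicCompletion.ofAlgEquiv I).restrictScalars O).injective
  rw [AlgHom.comp_apply]
  refine ((AdicCompletion.ofAlgEquiv I).restrictScalars O).apply_symm_apply _ |>.trans ?_
  refine AdicCompletion.ext_evalₐ fun n => ?_
  rw [AdicCompletion.evalₐ_liftAlgHom]
  change _ = AdicCompletion.evalₐ I n (AdicCompletion.of I B (a i))
  rw [AdicCompletion.evalₐ_of]
  change Ideal.Quotient.mk _ (MvPolynomial.aeval a (truncTotal n (X i))) = _
  rw [Ideal.Quotient.mk_eq_mk_iff_sub_mem]
  have h := hle n (x := truncTotal n (X i : MvPowerSeries σ O) - MvPolynomial.X i)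
    ((MvPolynomial.mem_pow_idealOfVars_iff' ..).mpr fun d hd => by
      rw [MvPolynomial.coeff_sub, sub_eq_zero, coeff_truncTotal _ hd, ← MvPolynomial.coe_X,
        MvPolynomial.coeff_coe])
  rw [Ideal.mem_comap, map_sub, MvPolynomial.aeval_X] at h
  exact h

/-- An algebra over a complete ring is finite as soon as it is finite modulo the ideal. -/
theorem finite_of_finite_quotient {A B : Type} [CommRing A] [IsNoetherianRing A] [CommRing B]
    [Algebra A B] (I : Ideal A) [IsAdicComplete I A] [IsHausdorff (I.map (algebraMap A B)) B]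
    [hfin : Finite (B ⧸ I.map (algebraMap A B))] : Module.Finite A B := by
  classical
  haveI := Fintype.ofFinite (B ⧸ I.map (algebraMap A B))
  haveI : IsAdicComplete I ((B ⧸ I.map (algebraMap A B)) → A) := IsAdicComplete.of_module_finite I _
  haveI : IsHausdorff I B :=
    (IsHausdorff.map_algebraMap_iff (I := I) (S := B) (M := B)).mp inferInstance
  let f : ((B ⧸ I.map (algebraMap A B)) → A) →ₗ[A] B :=
    Fintype.linearCombination A fun c => Quotient.out c
  refine Module.Finite.of_surjective f (surjective_of_mkQ_comp_surjective (I := I) fun y => ?_)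
  obtain ⟨b, rfl⟩ := Submodule.mkQ_surjective _ y
  refine ⟨Pi.single (Ideal.Quotient.mk _ b) 1, ?_⟩
  simp only [LinearMap.comp_apply, f, Fintype.linearCombination_apply_single, one_smul,
    Submodule.mkQ_apply]
  rw [Submodule.Quotient.eq, Ideal.smul_top_eq_map, Submodule.restrictScalars_mem,
    ← Ideal.Quotient.eq]
  exact Ideal.Quotient.mk_out _

variable {O : Type} [CommRing O] [IsDomain O] [IsDiscreteValuationRing O]
  [IsAdicComplete (maximalIdeal O) O]

/-- The kernel of evaluation at a point with coordinates in the maximal ideal. -/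
theorem ker_eval_le {N : ℕ} (c : Fin N → O) (hc : ∀ i, c i ∈ maximalIdeal O)
    (f : MvPowerSeries (Fin N) O →ₐ[O] O) (hf : ∀ i, f (X i) = c i) :
    RingHom.ker f ≤ Ideal.span (Set.range fun i => X i - C (c i)) := by
  set J := Ideal.span (Set.range fun i => (X i - C (c i) : MvPowerSeries (Fin N) O)) with hJ
  let π := Ideal.Quotient.mk J
  let g : O →+* MvPowerSeries (Fin N) O ⧸ J := π.comp C
  have hJm : J ≤ maximalIdeal (MvPowerSeries (Fin N) O) := by
    rw [hJ, Ideal.span_le]
    rintro _ ⟨i, rfl⟩
    rw [SetLike.mem_coe, mem_maximalIdeal, mem_nonunits_iff, isUnit_iff_constantCoeff]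
    simp only [map_sub, constantCoeff_X, constantCoeff_C, zero_sub, IsUnit.neg_iff]
    exact hc i
  haveI : Nontrivial (MvPowerSeries (Fin N) O ⧸ J) :=
    Ideal.Quotient.nontrivial_iff.mpr (ne_top_of_le_ne_top (maximalIdeal.isMaximal _).ne_top hJm)
  haveI : IsLocalRing (MvPowerSeries (Fin N) O ⧸ J) :=
    IsLocalRing.of_surjective' π Ideal.Quotient.mk_surjective
  haveI : IsNoetherianRing (MvPowerSeries (Fin N) O ⧸ J) :=
    isNoetherianRing_of_surjective _ _ π Ideal.Quotient.mk_surjective
  haveI : IsHausdorff ((maximalIdeal O).map g) (MvPowerSeries (Fin N) O ⧸ J) := by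
    refine IsHausdorff.of_isLocalRing _ _ (ne_top_of_le_ne_top
      (maximalIdeal.isMaximal (MvPowerSeries (Fin N) O ⧸ J)).ne_top ?_)
    rw [Ideal.map_le_iff_le_comap]
    intro x hx
    rw [Ideal.mem_comap, mem_maximalIdeal, mem_nonunits_iff]
    haveI : IsLocalHom π := .of_surjective _ Ideal.Quotient.mk_surjective
    intro hu
    have := isUnit_of_map_unit π _ hu
    rw [isUnit_iff_constantCoeff, constantCoeff_C] at this
    exact hx this
  have hsurj : Function.Surjective g := surjective_of_mk_map_comp_surjective (I := maximalIdeal O) g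
    fun y => by
      obtain ⟨y, rfl⟩ := Ideal.Quotient.mk_surjective y
      obtain ⟨w, rfl⟩ := Ideal.Quotient.mk_surjective y
      refine ⟨constantCoeff w, ?_⟩
      rw [RingHom.comp_apply, Ideal.Quotient.eq]
      change π (C (constantCoeff w)) - π w ∈ _
      rw [← map_sub]
      have hw : C (constantCoeff w) - w ∈
          Ideal.span (Set.range fun i => (X i : MvPowerSeries (Fin N) O)) := by
        rw [← Patching.ofList_X, Patching.mem_ofList_X_iff]
        simp
      have hX : Ideal.span (Set.range fun i => (X i : MvPowerSeries (Fin N) O)) ≤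
          ((maximalIdeal O).map g).comap π := by
        rw [Ideal.span_le]
        rintro _ ⟨i, rfl⟩
        have : π (X i) = g (c i) := by
          rw [RingHom.comp_apply, Ideal.Quotient.eq]
          exact Ideal.subset_span ⟨i, rfl⟩
        rw [SetLike.mem_coe, Ideal.mem_comap, this]
        exact Ideal.mem_map_of_mem g (hc i)
      exact hX hw
  intro w hw
  obtain ⟨o, ho⟩ := hsurj (π w)
  rw [RingHom.comp_apply, Ideal.Quotient.eq] at ho
  have h0 : J ≤ RingHom.ker f := by
    rw [hJ, Ideal.span_le]
    rintro _ ⟨i, rfl⟩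
    simp [RingHom.mem_ker, hf, c_eq_algebraMap]
  have ho0 : o = 0 := by
    have := h0 ho
    rw [RingHom.mem_ker, map_sub, RingHom.mem_ker.mp hw, sub_zero] at this
    rwa [c_eq_algebraMap, AlgHom.commutes, Algebra.algebraMap_self, RingHom.id_apply] at this
  subst ho0
  simpa using ho

end Fermat.Agent.LL
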