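/-
Level lowering by patching: chains of primes; dropping one dimension by an element, lifting chains
along integral extensions, and the dimension of power series rings over a discrete valuation ring.
-/
import Fermat.Agent.LL.Algebra.Complete
import Mathlib

set_option autoImplicit false

open IsLocalRing MvPowerSeries

namespace Fermat.Agent.LL

/-- A chain of primes of length `n` starting at or above `I`. -/
def HasPrimeChain {R : Type} [CommRing R] (I : Ideal R) (n : ℕ) : Prop :=
  ∃ p : ℕ → Ideal R, I ≤ p 0 ∧ (∀ i ≤ n, (p i).IsPrime) ∧ ∀ i < n, p i < p (i + 1)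

theorem HasPrimeChain.le_dim {R : Type} [CommRing R] {I : Ideal R} {n : ℕ}
    (h : HasPrimeChain I n) : (n : WithBot ℕ∞) ≤ ringKrullDim (R ⧸ I) := by
  obtain ⟨p, h0, hp, hlt⟩ := h
  have hI : ∀ i, i ≤ n → I ≤ p i := by
    intro i hi
    induction i with
    | zero => exact h0
    | succ i ih => exact (ih (by omega)).trans (hlt i (by omega)).le
  have hf : Function.Surjective (Ideal.Quotient.mk I) := Ideal.Quotient.mk_surjective
  have hback : ∀ i, i ≤ n → ((p i).map (Ideal.Quotient.mk I)).comap (Ideal.Quotient.mk I) = p i :=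
    fun i hi => by
      rw [Ideal.comap_map_of_surjective' _ hf, Ideal.mk_ker, sup_eq_left.mpr (hI i hi)]
  refine Order.le_krullDim_iff.mpr ⟨⟨n, fun i => ⟨(p i).map (Ideal.Quotient.mk I), ?_⟩, ?_⟩, rfl⟩
  · haveI := hp i (by omega)
    exact Ideal.map_isPrime_of_surjective hf (by rw [Ideal.mk_ker]; exact hI i (by omega))
  · intro i
    change (p (i.castSucc : ℕ)).map (Ideal.Quotient.mk I) < (p (i.succ : ℕ)).map _
    refine lt_of_le_of_ne (Ideal.map_mono ?_) fun he => ?_
    · simpa using (hlt i i.2).le
    · have := congrArg (Ideal.comap (Ideal.Quotient.mk I)) he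
      rw [hback _ (by omega), hback _ (by omega)] at this
      simp only [Fin.val_castSucc, Fin.val_succ] at this
      exact (hlt i i.2).ne this

theorem hasPrimeChain_of_le_dim {R : Type} [CommRing R] {I : Ideal R} {n : ℕ}
    (h : (n : WithBot ℕ∞) ≤ ringKrullDim (R ⧸ I)) : HasPrimeChain I n := by
  obtain ⟨s, hs⟩ := Order.le_krullDim_iff.mp h
  let f := Ideal.Quotient.mk I
  refine ⟨fun i => (s ⟨min i n, by omega⟩).asIdeal.comap f, ?_, fun i hi => inferInstance,
    fun i hi => ?_⟩
  · intro a ha
    rw [Ideal.mem_comap, Ideal.Quotient.eq_zero_iff_mem.mpr ha]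
    exact zero_mem _
  · refine lt_of_le_of_ne (Ideal.comap_mono (s.monotone ?_)) fun he => ?_
    · rw [Fin.le_def]; simp only; omega
    · have h1 := Ideal.comap_injective_of_surjective f Ideal.Quotient.mk_surjective he
      have h2 : s ⟨min i n, by omega⟩ < s ⟨min (i + 1) n, by omega⟩ := s.strictMono (by
        rw [Fin.lt_def]; simp only; omega)
      exact h2.ne (PrimeSpectrum.ext h1)

/-- An element outside a prime inside the maximal ideal drops the length of chains by one. -/
theorem exists_prime_gt {R : Type} [CommRing R] [IsLocalRing R] [IsNoetherianRing R]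
    (P : Ideal R) [P.IsPrime] {x : R} (hxm : x ∈ maximalIdeal R) {n : ℕ}
    (h : HasPrimeChain P (n + 1)) :
    ∃ P' : Ideal R, P'.IsPrime ∧ P ≤ P' ∧ x ∈ P' ∧ HasPrimeChain P' n := by
  let f := Ideal.Quotient.mk P
  haveI : Nontrivial (R ⧸ P) := Ideal.Quotient.nontrivial_iff.mpr (Ideal.IsPrime.ne_top ‹_›)
  haveI : IsLocalRing (R ⧸ P) := IsLocalRing.of_surjective' f Ideal.Quotient.mk_surjective
  haveI : IsLocalHom f := .of_surjective _ Ideal.Quotient.mk_surjective
  have h1 := ringKrullDim_le_ringKrullDim_quotient_add_card {f x}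
    (by
      rw [IsLocalRing.ringJacobson_eq_maximalIdeal]
      simp only [Finset.coe_singleton, Set.singleton_subset_iff, SetLike.mem_coe, mem_maximalIdeal]
      exact fun hu => hxm (isUnit_of_map_unit f _ hu))
  rw [Finset.coe_singleton, Finset.card_singleton] at h1
  have h3 := h.le_dim.trans h1
  rw [Nat.cast_succ, ← Nat.cast_one (R := WithBot ℕ∞)] at h3
  obtain ⟨p, h0, hp, hlt⟩ := hasPrimeChain_of_le_dim
    (ENat.WithBot.add_le_add_natCast_right_iff.mp h3)
  refine ⟨(p 0).comap f, ?_, fun a ha => ?_, h0 (Ideal.mem_span_singleton_self _),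
    fun i => (p i).comap f, le_rfl, fun i hi => ?_, fun i hi => ?_⟩
  · haveI := hp 0 (by omega); infer_instance
  · rw [Ideal.mem_comap, Ideal.Quotient.eq_zero_iff_mem.mpr ha]
    exact zero_mem _
  · haveI := hp i hi; infer_instance
  · exact lt_of_le_of_ne (Ideal.comap_mono (hlt i hi).le) fun he =>
      (hlt i hi).ne (Ideal.comap_injective_of_surjective f Ideal.Quotient.mk_surjective he)

/-- Chains of primes lift along injective integral maps. -/
theorem HasPrimeChain.of_isIntegral {S B : Type} [CommRing S] [CommRing B] [IsDomain B]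
    [Algebra S B] [Algebra.IsIntegral S B] (hinj : Function.Injective (algebraMap S B)) {n : ℕ}
    (h : HasPrimeChain (⊥ : Ideal S) n) : HasPrimeChain (⊥ : Ideal B) n := by
  obtain ⟨p, h0, hp, hlt⟩ := h
  have : ∀ k ≤ n, ∃ q : ℕ → Ideal B, (∀ i ≤ k, (q i).IsPrime ∧
      (q i).comap (algebraMap S B) = p i) ∧ ∀ i < k, q i < q (i + 1) := by
    intro k hk
    induction k with
    | zero =>
      haveI := hp 0 hk
      obtain ⟨Q, -, hQ, hQ'⟩ := Ideal.exists_ideal_over_prime_of_isIntegral (p 0) (⊥ : Ideal B)
        (by rw [← RingHom.ker_eq_comap_bot, (RingHom.injective_iff_ker_eq_bot _).mp hinj]; exact bot_le)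
      exact ⟨fun _ => Q, fun i hi => by
        obtain rfl : i = 0 := by omega
        exact ⟨hQ, hQ'⟩, fun i hi => by omega⟩
    | succ k ih =>
      obtain ⟨q, hq, hql⟩ := ih (by omega)
      obtain ⟨hqk, hqk'⟩ := hq k le_rfl
      haveI := hqk
      haveI := hp (k + 1) hk
      obtain ⟨Q, hle, hQ, hQ'⟩ := Ideal.exists_ideal_over_prime_of_isIntegral_of_isPrime
        (p (k + 1)) (q k) (hqk' ▸ (hlt k (by omega)).le)
      refine ⟨fun i => if i ≤ k then q i else Q, fun i hi => ?_, fun i hi => ?_⟩
      · dsimp only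
        rcases Nat.lt_or_ge i (k + 1) with h1 | h1
        · rw [if_pos (by omega)]; exact hq i (by omega)
        · obtain rfl : i = k + 1 := by omega
          rw [if_neg (by omega)]; exact ⟨hQ, hQ'⟩
      · dsimp only
        rcases Nat.lt_or_ge i k with h1 | h1
        · rw [if_pos (by omega), if_pos (by omega)]; exact hql i h1
        · obtain rfl : i = k := by omega
          rw [if_pos le_rfl, if_neg (by omega)]
          refine lt_of_le_of_ne hle fun he => (hlt i hk).ne ?_
          rw [← hqk', ← hQ', he]
  obtain ⟨q, hq, hql⟩ := this n le_rfl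
  exact ⟨q, bot_le, fun i hi => (hq i hi).1, hql⟩

variable (O : Type) [CommRing O] [IsDomain O] [IsDiscreteValuationRing O]

/-- `O⟦X₁, …, X_r⟧` has a chain of primes of length `r + 1`. -/
theorem hasPrimeChain_powerSeries (r : ℕ) :
    HasPrimeChain (⊥ : Ideal (MvPowerSeries (Fin r) O)) (r + 1) := by
  let L := List.ofFn (X : Fin r → MvPowerSeries (Fin r) O)
  let J : ℕ → Ideal (MvPowerSeries (Fin r) O) := fun k => Ideal.ofList (L.take k)
  have hmono : ∀ k, J k ≤ J (k + 1) := fun k =>
    Ideal.span_mono fun a ha => (List.take_sublist_take_left k.le_succ).subset ha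
  have step : ∀ j, j ≤ r → ((r + 1 - (r - j) : ℕ) : WithBot ℕ∞) ≤
      ringKrullDim (MvPowerSeries (Fin r) O ⧸ J (r - j)) := by
    intro j hj
    induction j with
    | zero =>
      simp only [Nat.sub_zero, add_tsub_cancel_left, Nat.cast_one]
      rw [← IsDiscreteValuationRing.ringKrullDim_eq_one O]
      have hle : ∀ a ∈ J r, constantCoeff a = 0 := fun a ha => by
        rw [← Patching.mem_ofList_X_iff]
        exact Ideal.span_mono (fun b hb => (List.take_subset r L) hb) ha
      exact ringKrullDim_le_of_surjective (Ideal.Quotient.lift _ constantCoeff hle)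
        fun o => ⟨Ideal.Quotient.mk _ (C o), by simp⟩
    | succ j ih =>
      have hk : r - (j + 1) < r := by omega
      have heq : r - j = r - (j + 1) + 1 := by omega
      have ih := ih (by omega)
      rw [heq] at ih
      let t : MvPowerSeries (Fin r) O := X ⟨r - (j + 1), hk⟩
      have ht : t ∈ J (r - (j + 1) + 1) := by
        refine Ideal.subset_span ?_
        simp only [Set.mem_ofPred_eq, L, List.mem_take_iff_getElem, List.getElem_ofFn]
        exact ⟨r - (j + 1), by simp; omega, rfl⟩
      have hreg := (Patching.isWeaklyRegular_X (O := O) (r := r)).regular_mod_prev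
        (r - (j + 1)) (by simpa using hk)
      rw [List.getElem_ofFn, isSMulRegular_quotient_iff_mem_of_smul_mem] at hreg
      have hnzd : Ideal.Quotient.mk (J (r - (j + 1))) t ∈
          nonZeroDivisors (MvPowerSeries (Fin r) O ⧸ J (r - (j + 1))) := by
        rw [mem_nonZeroDivisors_iff_right]
        intro z hz
        obtain ⟨z, rfl⟩ := Ideal.Quotient.mk_surjective z
        rw [← map_mul, Ideal.Quotient.eq_zero_iff_mem] at hz
        rw [Ideal.Quotient.eq_zero_iff_mem]
        have := hreg z (by simpa [mul_comm, J, L, t] using hz)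
        simpa [J, L] using this
      have h := ringKrullDim_succ_le_of_surjective
        (Ideal.Quotient.factor (hmono (r - (j + 1))))
        (Ideal.Quotient.factor_surjective _) hnzd (by
          rw [Ideal.Quotient.factor_mk, Ideal.Quotient.eq_zero_iff_mem]; exact ht)
      refine le_trans ?_ h
      refine le_trans (le_of_eq ?_) (add_le_add_left ih 1)
      rw [← Nat.cast_one (R := WithBot ℕ∞), ← Nat.cast_add]
      congr 1
      omega
  have h0 := step r le_rfl
  have hJ : J 0 = ⊥ := by simp [J, Ideal.ofList_nil]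
  rw [Nat.sub_self, hJ, Nat.sub_zero] at h0
  exact hasPrimeChain_of_le_dim h0

end Fermat.Agent.LL
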