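/-
Level lowering by patching: a local ring whose maximal ideal has as many generators as the length of
a chain of primes above a prime is a domain with that prime zero.
-/
import Mathlib

set_option autoImplicit false

open IsLocalRing

namespace Fermat.Agent.LL

/-- A prime with a chain above it as long as a system of generators of the maximal ideal is zero. -/
theorem eq_bot_of_chain : ∀ (n : ℕ) {R : Type} [CommRing R] [IsLocalRing R] [IsNoetherianRing R]
    (x : Fin n → R) (_ : maximalIdeal R = Ideal.span (Set.range x)) (q : Ideal R) [q.IsPrime],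
    (n : WithBot ℕ∞) ≤ ringKrullDim (R ⧸ q) → q = ⊥
  | 0, R, _, _, _, x, hx, q, hq, _ => by
    rw [Set.range_eq_empty, Ideal.span_empty] at hx
    exact le_bot_iff.mp ((le_maximalIdeal hq.ne_top).trans hx.le)
  | n + 1, R, _, _, _, x, hx, q, hq, hdim => by
    obtain ⟨i, hi⟩ : ∃ i, x i ∉ q := by
      by_contra h
      push Not at h
      have hle : maximalIdeal R ≤ q := by
        rw [hx, Ideal.span_le]
        rintro _ ⟨i, rfl⟩
        exact h i
      haveI : q.IsMaximal :=
        le_antisymm hle (le_maximalIdeal hq.ne_top) ▸ maximalIdeal.isMaximal R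
      letI := Ideal.Quotient.field q
      rw [ringKrullDim_eq_zero_of_field (R ⧸ q)] at hdim
      exact absurd (by exact_mod_cast hdim : n + 1 ≤ 0) (by omega)
    have hxm : x i ∈ maximalIdeal R := by
      rw [hx]; exact Ideal.subset_span ⟨i, rfl⟩
    let f := Ideal.Quotient.mk q
    haveI : Nontrivial (R ⧸ q) := Ideal.Quotient.nontrivial_iff.mpr hq.ne_top
    haveI : IsLocalRing (R ⧸ q) := IsLocalRing.of_surjective' f Ideal.Quotient.mk_surjective
    haveI : IsLocalHom f := .of_surjective _ Ideal.Quotient.mk_surjective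
    have h1 := ringKrullDim_le_ringKrullDim_quotient_add_card {f (x i)}
      (by
        rw [IsLocalRing.ringJacobson_eq_maximalIdeal]
        simp only [Finset.coe_singleton, Set.singleton_subset_iff, SetLike.mem_coe, mem_maximalIdeal]
        exact fun hu => hxm (isUnit_of_map_unit f _ hu))
    rw [Finset.coe_singleton, Finset.card_singleton] at h1
    have h2 : (n : WithBot ℕ∞) ≤ ringKrullDim ((R ⧸ q) ⧸ Ideal.span {f (x i)}) := by
      have h3 := hdim.trans h1
      rw [Nat.cast_succ, ← Nat.cast_one (R := WithBot ℕ∞)] at h3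
      exact ENat.WithBot.add_le_add_natCast_right_iff.mp h3
    obtain ⟨s, hs⟩ := Order.le_krullDim_iff.mp h2
    let R₁ := R ⧸ Ideal.span {x i}
    let g := (Ideal.Quotient.mk (Ideal.span {f (x i)})).comp f
    let P := Ideal.comap g s.head.asIdeal
    have hxP : x i ∈ P := by
      refine Ideal.mem_comap.mpr ?_
      simp [g, Ideal.Quotient.eq_zero_iff_mem.mpr (Ideal.mem_span_singleton_self (f (x i)))]
    have hqP : q ≤ P := fun a ha => Ideal.mem_comap.mpr (by
      simp [g, f, Ideal.Quotient.eq_zero_iff_mem.mpr ha])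
    have hdP : (n : WithBot ℕ∞) ≤ ringKrullDim (R ⧸ P) := by
      refine Order.le_krullDim_iff.mpr ⟨LTSeries.mk s.length
        (fun j => ⟨(s j).asIdeal.comap g |>.map (Ideal.Quotient.mk P), ?_⟩) ?_, hs⟩
      · refine Ideal.map_isPrime_of_surjective Ideal.Quotient.mk_surjective ?_
        rw [Ideal.mk_ker]
        exact Ideal.comap_mono (s.head_le j)
      · intro a b hab
        have hlt : (s a).asIdeal < (s b).asIdeal := s.strictMono hab
        have hg : Function.Surjective g :=
          Ideal.Quotient.mk_surjective.comp Ideal.Quotient.mk_surjective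
        have hP : ∀ j, P ≤ (s j).asIdeal.comap g := fun j => Ideal.comap_mono (s.head_le j)
        have hback : ∀ j, ((s j).asIdeal.comap g |>.map (Ideal.Quotient.mk P)).comap
            (Ideal.Quotient.mk P) = (s j).asIdeal.comap g := fun j => by
          rw [Ideal.comap_map_of_surjective' _ Ideal.Quotient.mk_surjective, Ideal.mk_ker,
            sup_eq_left.mpr (hP j)]
        refine lt_of_le_of_ne (Ideal.map_mono (Ideal.comap_mono hlt.le)) fun he => ?_
        have h' := congrArg (fun I : Ideal (R ⧸ P) => I.comap (Ideal.Quotient.mk P))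
          (congrArg PrimeSpectrum.asIdeal he)
        simp only [hback] at h'
        exact hlt.ne (Ideal.comap_injective_of_surjective g hg h')
    haveI : P.IsPrime := inferInstanceAs (Ideal.comap g s.head.asIdeal).IsPrime
    let π := Ideal.Quotient.mk (Ideal.span {x i})
    haveI : Nontrivial R₁ := Ideal.Quotient.nontrivial_iff.mpr fun h =>
      hxm (Ideal.span_singleton_eq_top.mp h)
    haveI : IsLocalRing R₁ := IsLocalRing.of_surjective' π Ideal.Quotient.mk_surjective
    have hxP' : Ideal.span {x i} ≤ P := by
      rw [Ideal.span_le, Set.singleton_subset_iff]; exact hxP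
    haveI : (P.map π).IsPrime :=
      Ideal.map_isPrime_of_surjective Ideal.Quotient.mk_surjective (by rw [Ideal.mk_ker]; exact hxP')
    have hm₁ : maximalIdeal R₁ = Ideal.span (Set.range fun j => π (x (i.succAbove j))) := by
      haveI : (Ideal.map π (maximalIdeal R)).IsMaximal :=
        Ideal.IsMaximal.map_of_surjective_of_ker_le Ideal.Quotient.mk_surjective (by
          rw [Ideal.mk_ker, Ideal.span_le, Set.singleton_subset_iff]; exact hxm)
      rw [← IsLocalRing.eq_maximalIdeal (I := Ideal.map π (maximalIdeal R)) inferInstance, hx,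
        Ideal.map_span, ← Set.range_comp]
      refine le_antisymm (Ideal.span_le.mpr ?_) (Ideal.span_mono ?_)
      · rintro _ ⟨j, rfl⟩
        rcases Fin.eq_self_or_eq_succAbove i j with hji | ⟨k, rfl⟩
        · subst hji
          simp [π, Ideal.Quotient.eq_zero_iff_mem.mpr (Ideal.mem_span_singleton_self (x _))]
        · exact Ideal.subset_span ⟨k, rfl⟩
      · rintro _ ⟨k, rfl⟩; exact ⟨_, rfl⟩
    have hdim₁ : (n : WithBot ℕ∞) ≤ ringKrullDim (R₁ ⧸ P.map π) := by
      refine hdP.trans (le_of_eq ?_)
      exact (ringKrullDim_eq_of_ringEquiv ((DoubleQuot.quotQuotEquivQuotOfLE hxP'))).symm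
    have h0 := eq_bot_of_chain n (fun j => π (x (i.succAbove j))) hm₁ (P.map π) hdim₁
    have hPx : P ≤ Ideal.span {x i} := fun a ha => by
      rw [← Ideal.Quotient.eq_zero_iff_mem]
      exact (Ideal.mem_bot).mp (h0 ▸ Ideal.mem_map_of_mem π ha)
    have hq2 : q ≤ Ideal.span {x i} • q := fun a ha => by
      obtain ⟨c, rfl⟩ := Ideal.mem_span_singleton'.mp (hPx (hqP ha))
      rw [mul_comm, ← smul_eq_mul]
      exact Submodule.smul_mem_smul (Ideal.mem_span_singleton_self _)
        ((hq.mem_or_mem ha).resolve_right hi)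
    refine Submodule.eq_bot_of_le_smul_of_le_jacobson_bot _ q (IsNoetherian.noetherian q) hq2 ?_
    rw [IsLocalRing.jacobson_eq_maximalIdeal ⊥ bot_ne_top, Ideal.span_le, Set.singleton_subset_iff]
    exact hxm

end Fermat.Agent.LL
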